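import Mathlib
import Fermat.Agent.Lib.HolVal
import Fermat.Agent.S24.Bridge
import Fermat.Agent.S24.ModRing
import Fermat.Agent.S37.Kron.AtkinLehner

/-!
# P5, block [HECKE-κ]: the ambient field `Mer(ℍ)` and the realisation of `F_N` on `ℍ`

* `MerH := FractionRing Hol`, the field of fractions of the ring of all holomorphic functions on
  the upper half plane (`Lib/HolVal`).
* `pre δ : MerH ≃+* MerH` for `δ ∈ GL₂(ℝ)⁺`: induced by `f ↦ f ∘ δ`; it is CONTRAVARIANT,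
  `pre (δ₁ * δ₂) m = pre δ₂ (pre δ₁ m)`.
* `cstM : ℂ →+* MerH`, the constants; they are fixed by every `pre δ`.
* `E M : F_M →+* MerH`, "the function on `ℍ` with that `q`-expansion": the composition of S24's
  `embFN M : F_M → Frac (RN M)` with the inclusion `Frac (RN M) → MerH`.
* `E_gen`, `E_const`: values on the generators `j(q^d)` and on the constants.
* `pre_sl_E`: `E M y` is invariant under `Γ₀(M)`.
* `E_alpha`, `E_beta`: compatibility with the two degeneracy maps `α, β : F_N → F_{Nℓ}`: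
  `E (N ℓ) (α y) = E N y` and `E (N ℓ) (β y) = pre diag(ℓ, 1) (E N y)`.
-/

set_option autoImplicit false

noncomputable section

namespace Fermat.Agent.P5.HeckeKappa

open UpperHalfPlane CongruenceSubgroup ModularCurve
open Fermat.Agent.Lib Fermat.Agent.Lib.HolVal Fermat.Agent.Lib.JStab Fermat.Agent.S24
open scoped MatrixGroups Manifold

/-- `Mer(ℍ)`: the field of fractions of the ring of holomorphic functions on `ℍ`. -/
abbrev MerH : Type := FractionRing Hol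

/-- `GL₂(ℝ)⁺`. -/
abbrev GLp : Subgroup (GL (Fin 2) ℝ) := Matrix.GLPos (Fin 2) ℝ

theorem glp_det_pos (δ : GLp) : 0 < (δ : GL (Fin 2) ℝ).det.val := δ.2

theorem mdiff_comp_glp (δ : GLp) {f : ℍ → ℂ} (hf : MDiff f) :
    MDiff (fun z : ℍ => f ((δ : GL (Fin 2) ℝ) • z)) :=
  hf.comp (mdifferentiable_smul (g := (δ : GL (Fin 2) ℝ)) (glp_det_pos δ))

/-- Precomposition with `δ ∈ GL₂(ℝ)⁺` on holomorphic functions. -/
def preHol (δ : GLp) : Hol →+* Hol where
  toFun f := ⟨fun z => (f : ℍ → ℂ) ((δ : GL (Fin 2) ℝ) • z), mdiff_comp_glp δ f.2⟩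
  map_one' := rfl
  map_mul' _ _ := rfl
  map_zero' := rfl
  map_add' _ _ := rfl

@[simp] theorem preHol_apply (δ : GLp) (f : Hol) (z : ℍ) :
    (preHol δ f : ℍ → ℂ) z = (f : ℍ → ℂ) ((δ : GL (Fin 2) ℝ) • z) := rfl

theorem preHol_one (f : Hol) : preHol 1 f = f := by
  apply Subtype.ext
  funext z
  show (f : ℍ → ℂ) (((1 : GLp) : GL (Fin 2) ℝ) • z) = (f : ℍ → ℂ) z
  rw [Subgroup.coe_one, one_smul]

/-- Contravariance of precomposition. -/
theorem preHol_mul (δ₁ δ₂ : GLp) (f : Hol) : preHol (δ₁ * δ₂) f = preHol δ₂ (preHol δ₁ f) := by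
  apply Subtype.ext
  funext z
  show (f : ℍ → ℂ) (((δ₁ * δ₂ : GLp) : GL (Fin 2) ℝ) • z) =
    (f : ℍ → ℂ) ((δ₁ : GL (Fin 2) ℝ) • (δ₂ : GL (Fin 2) ℝ) • z)
  rw [Subgroup.coe_mul, mul_smul]

/-- Precomposition with `δ`, as a ring automorphism of `Hol`. -/
def preHolEquiv (δ : GLp) : Hol ≃+* Hol :=
  RingEquiv.ofRingHom (preHol δ) (preHol δ⁻¹)
    (by
      apply RingHom.ext
      intro f
      show preHol δ (preHol δ⁻¹ f) = f
      rw [← preHol_mul, inv_mul_cancel, preHol_one])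
    (by
      apply RingHom.ext
      intro f
      show preHol δ⁻¹ (preHol δ f) = f
      rw [← preHol_mul, mul_inv_cancel, preHol_one])

@[simp] theorem preHolEquiv_apply (δ : GLp) (f : Hol) : preHolEquiv δ f = preHol δ f := rfl

/-- Precomposition with `δ ∈ GL₂(ℝ)⁺` on `Mer(ℍ)`. -/
def pre (δ : GLp) : MerH ≃+* MerH := IsFractionRing.ringEquivOfRingEquiv (preHolEquiv δ)

theorem pre_algebraMap (δ : GLp) (f : Hol) :
    pre δ (algebraMap Hol MerH f) = algebraMap Hol MerH (preHol δ f) :=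
  IsFractionRing.ringEquivOfRingEquiv_algebraMap (preHolEquiv δ) f

/-- Two ring homs out of `Mer(ℍ)` which agree on `Hol` are equal. -/
theorem merH_hom_ext {S : Type*} [Semiring S] {φ ψ : MerH →+* S}
    (h : ∀ f : Hol, φ (algebraMap Hol MerH f) = ψ (algebraMap Hol MerH f)) : φ = ψ :=
  IsLocalization.ringHom_ext (nonZeroDivisors Hol) (RingHom.ext h)

/-- Contravariance: `pre (δ₁ * δ₂) = pre δ₂ ∘ pre δ₁`. -/
theorem pre_mul (δ₁ δ₂ : GLp) (m : MerH) : pre (δ₁ * δ₂) m = pre δ₂ (pre δ₁ m) := by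
  have h : (pre (δ₁ * δ₂)).toRingHom = (pre δ₂).toRingHom.comp (pre δ₁).toRingHom := by
    apply merH_hom_ext
    intro f
    show pre (δ₁ * δ₂) (algebraMap Hol MerH f) = pre δ₂ (pre δ₁ (algebraMap Hol MerH f))
    rw [pre_algebraMap, pre_algebraMap, pre_algebraMap, preHol_mul]
  exact congrArg (fun φ : MerH →+* MerH => φ m) h

theorem pre_one (m : MerH) : pre 1 m = m := by
  have h : (pre 1).toRingHom = RingHom.id MerH := by
    apply merH_hom_ext
    intro f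
    show pre 1 (algebraMap Hol MerH f) = algebraMap Hol MerH f
    rw [pre_algebraMap, preHol_one]
  exact congrArg (fun φ : MerH →+* MerH => φ m) h

/-! ### Constants -/

/-- The constant functions. -/
def cstHol : ℂ →+* Hol where
  toFun c := ⟨fun _ => c, mdifferentiable_const⟩
  map_one' := rfl
  map_mul' _ _ := rfl
  map_zero' := rfl
  map_add' _ _ := rfl

@[simp] theorem cstHol_apply (c : ℂ) (z : ℍ) : (cstHol c : ℍ → ℂ) z = c := rfl

/-- The constants of `Mer(ℍ)`. -/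
def cstM : ℂ →+* MerH := (algebraMap Hol MerH).comp cstHol

theorem cstM_apply (c : ℂ) : cstM c = algebraMap Hol MerH (cstHol c) := rfl

theorem cstM_injective : Function.Injective cstM := cstM.injective

theorem preHol_cstHol (δ : GLp) (c : ℂ) : preHol δ (cstHol c) = cstHol c := rfl

/-- Constants are fixed by every `pre δ`. -/
theorem pre_cstM (δ : GLp) (c : ℂ) : pre δ (cstM c) = cstM c := by
  rw [cstM_apply, pre_algebraMap, preHol_cstHol]

/-! ### `SL(2, ℤ)` inside `GL₂(ℝ)⁺` -/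

/-- `SL(2, ℤ) → GL₂(ℝ)⁺`. -/
def slp : SL(2, ℤ) →* GLp :=
  (Matrix.SpecialLinearGroup.mapGL ℝ).codRestrict GLp (fun γ => det_coe_pos' γ)

theorem coe_slp (γ : SL(2, ℤ)) : ((slp γ : GLp) : GL (Fin 2) ℝ) = (γ : GL (Fin 2) ℝ) := rfl

theorem slp_smul (γ : SL(2, ℤ)) (z : ℍ) : ((slp γ : GLp) : GL (Fin 2) ℝ) • z = γ • z := rfl

theorem preHol_slp_apply (γ : SL(2, ℤ)) (f : Hol) (z : ℍ) :
    (preHol (slp γ) f : ℍ → ℂ) z = (f : ℍ → ℂ) (γ • z) := rfl

/-! ### The realisation of `F_M` on `ℍ` -/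

theorem RN_le_Hol (M : ℕ) [NeZero M] : RN M ≤ Hol := fun f hf => IsHolStable.mdiff f hf

/-- `RN M → Hol`. -/
def inclR (M : ℕ) [NeZero M] : RN M →+* Hol := Subring.inclusion (RN_le_Hol M)

theorem inclR_injective (M : ℕ) [NeZero M] : Function.Injective (inclR M) :=
  Subring.inclusion_injective (RN_le_Hol M)

@[simp] theorem coe_inclR (M : ℕ) [NeZero M] (r : RN M) :
    ((inclR M r : Hol) : ℍ → ℂ) = (r : ℍ → ℂ) := rfl

theorem inclR_comp_injective (M : ℕ) [NeZero M] :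
    Function.Injective ((algebraMap Hol MerH).comp (inclR M)) :=
  (IsFractionRing.injective Hol MerH).comp (inclR_injective M)

/-- `Frac (RN M) → Mer(ℍ)`. -/
def inclMN (M : ℕ) [NeZero M] : FractionRing (RN M) →+* MerH :=
  IsFractionRing.lift (inclR_comp_injective M)

theorem inclMN_algebraMap (M : ℕ) [NeZero M] (r : RN M) :
    inclMN M (algebraMap (RN M) (FractionRing (RN M)) r) = algebraMap Hol MerH (inclR M r) :=
  IsFractionRing.lift_algebraMap (inclR_comp_injective M) r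

/-- **The realisation of the Prelude function field of `X₀(M)` on `ℍ`.** -/
def E (M : ℕ) [NeZero M] : FN M →+* MerH := (inclMN M).comp (embFN M).toRingHom

theorem E_apply (M : ℕ) [NeZero M] (y : FN M) : E M y = inclMN M (embFN M y) := rfl

theorem E_injective (M : ℕ) [NeZero M] : Function.Injective (E M) := (E M).injective

/-- `j(d τ)` as an element of `Hol`. -/
def jHol (d : ℕ) [NeZero d] : Hol := ⟨jN d, IsHolStable.mdiff _ (jN_mem_RN (N := d) dvd_rfl)⟩

@[simp] theorem coe_jHol (d : ℕ) [NeZero d] : ((jHol d : Hol) : ℍ → ℂ) = jN d := rfl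

/-- The value of `E M` on the generator `j(q^d)`, `d ∣ M`. -/
theorem E_gen (M : ℕ) [NeZero M] (d : ℕ) [NeZero d] (hd : d ∣ M) :
    E M ⟨FFBridge.gen d, FFBridge.gen_mem hd⟩ = algebraMap Hol MerH (jHol d) := by
  have h := embFN_jBarLevel M d hd
  rw [E_apply]
  have h' : embFN M ⟨FFBridge.gen d, FFBridge.gen_mem hd⟩ =
      algebraMap (RN M) (FractionRing (RN M)) (jNR M hd) := h
  rw [h', inclMN_algebraMap]
  rfl

/-- The value of `E M` on a constant. -/
theorem E_const (M : ℕ) [NeZero M] (c : Kbar) :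
    E M (algebraMap Kbar (FN M) c) = cstM (Basic.iota c) := by
  rw [E_apply, AlgHom.commutes,
    IsScalarTower.algebraMap_apply Kbar (RN M) (FractionRing (RN M)), inclMN_algebraMap]
  rfl

/-- Two ring homs `F_M → Mer(ℍ)` agreeing on the constants and on the generators are equal. -/
theorem hom_ext_FN (M : ℕ) [NeZero M] (Θ₁ Θ₂ : FN M →+* MerH)
    (hconst : ∀ c : Kbar, Θ₁ (algebraMap Kbar (FN M) c) = Θ₂ (algebraMap Kbar (FN M) c))
    (hgen : ∀ (d : ℕ) [NeZero d] (hd : d ∣ M),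
      Θ₁ ⟨FFBridge.gen d, FFBridge.gen_mem hd⟩ = Θ₂ ⟨FFBridge.gen d, FFBridge.gen_mem hd⟩) :
    Θ₁ = Θ₂ :=
  FFBridge.ringHom_ext M Θ₁ Θ₂ hconst hgen

/-- `E M y` is invariant under `Γ₀(M)`. -/
theorem pre_sl_E (M : ℕ) [NeZero M] {γ : SL(2, ℤ)} (hγ : γ ∈ Gamma0 M) (y : FN M) :
    pre (slp γ) (E M y) = E M y := by
  have h : (pre (slp γ)).toRingHom.comp (E M) = E M := by
    refine hom_ext_FN M _ _ (fun c => ?_) (fun d _ hd => ?_)
    · show pre (slp γ) (E M (algebraMap Kbar (FN M) c)) = E M (algebraMap Kbar (FN M) c)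
      rw [E_const, pre_cstM]
    · show pre (slp γ) (E M ⟨FFBridge.gen d, FFBridge.gen_mem hd⟩) =
        E M ⟨FFBridge.gen d, FFBridge.gen_mem hd⟩
      have h1 : preHol (slp γ) (jHol d) = jHol d := by
        apply Subtype.ext
        funext z
        exact jN_smul_of_mem hd hγ z
      rw [E_gen M d hd, pre_algebraMap, h1]
  exact congrArg (fun φ : FN M →+* MerH => φ y) h

/-- If `E M y` is fixed by `γ` for all `y`, then `γ ∈ Γ₀(M)`. -/
theorem mem_Gamma0_of_pre_sl_E (M : ℕ) [NeZero M] (γ : SL(2, ℤ))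
    (h : pre (slp γ) (E M ⟨FFBridge.gen M, FFBridge.gen_mem dvd_rfl⟩) =
      E M ⟨FFBridge.gen M, FFBridge.gen_mem dvd_rfl⟩) : γ ∈ Gamma0 M := by
  rw [E_gen M M dvd_rfl, pre_algebraMap] at h
  have h2 := IsFractionRing.injective Hol MerH h
  apply mem_Gamma0_of_jN_smul M γ
  intro z
  exact congrFun (congrArg Subtype.val h2) z

/-! ### The two degeneracy maps -/

section Degeneracy

variable (N ℓ : ℕ) [NeZero N] [NeZero ℓ]

/-- `E (N ℓ) ∘ α = E N`. -/
theorem E_alpha (y : FN N) :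
    E (N * ℓ) (heckeAlphaBar (AlgebraicClosure ℚ) N ℓ y) = E N y := by
  have h : (E (N * ℓ)).comp (heckeAlphaBar (AlgebraicClosure ℚ) N ℓ).toRingHom = E N := by
    refine hom_ext_FN N _ _ (fun c => ?_) (fun d _ hd => ?_)
    · show E (N * ℓ) (heckeAlphaBar (AlgebraicClosure ℚ) N ℓ (algebraMap Kbar (FN N) c)) =
        E N (algebraMap Kbar (FN N) c)
      rw [AlgHom.commutes, E_const, E_const]
    · show E (N * ℓ) (heckeAlphaBar (AlgebraicClosure ℚ) N ℓ
          ⟨FFBridge.gen d, FFBridge.gen_mem hd⟩) = E N ⟨FFBridge.gen d, FFBridge.gen_mem hd⟩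
      rw [Fermat.Agent.S37.Kron.AtkinLehner.alpha_gen N ℓ hd, E_gen N d hd,
        E_gen (N * ℓ) d (Dvd.dvd.mul_right hd ℓ)]
  exact congrArg (fun φ : FN N →+* MerH => φ y) h

/-- `diag(ℓ, 1) ∈ GL₂(ℝ)⁺`. -/
def dilG : GLp :=
  ⟨Matrix.GeneralLinearGroup.mkOfDetNeZero !![(ℓ : ℝ), 0; 0, 1] (by
      rw [Matrix.det_fin_two_of]
      have : (ℓ : ℝ) ≠ 0 := Nat.cast_ne_zero.mpr (NeZero.ne ℓ)
      simpa using this), by
    rw [Matrix.mem_glpos]
    show 0 < (!![(ℓ : ℝ), 0; 0, 1] : Matrix (Fin 2) (Fin 2) ℝ).det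
    rw [Matrix.det_fin_two_of]
    have : (0 : ℝ) < ℓ := Nat.cast_pos.mpr (Nat.pos_of_ne_zero (NeZero.ne ℓ))
    simpa using this⟩

theorem coe_dilG_smul (z : ℍ) :
    (((dilG ℓ : GLp) : GL (Fin 2) ℝ) • z : ℍ) = Fermat.Agent.S37.Kron.AtkinLehner.dil ℓ z := by
  apply UpperHalfPlane.ext
  rw [Fermat.Agent.S37.Kron.AtkinLehner.coe_dil (NeZero.ne ℓ)]
  have hdet : 0 < ((dilG ℓ : GLp) : GL (Fin 2) ℝ).det.val := glp_det_pos _
  rw [UpperHalfPlane.coe_smul_of_det_pos hdet]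
  simp [dilG, UpperHalfPlane.num, UpperHalfPlane.denom]

/-- `j(d · ℓτ) = j(ℓd · τ)`. -/
theorem preHol_dilG_jHol (d : ℕ) [NeZero d] [NeZero (ℓ * d)] :
    preHol (dilG ℓ) (jHol d) = jHol (ℓ * d) := by
  apply Subtype.ext
  funext z
  show jN d (((dilG ℓ : GLp) : GL (Fin 2) ℝ) • z) = jN (ℓ * d) z
  rw [coe_dilG_smul, jN_def, jN_def, Fermat.Agent.S37.Kron.AtkinLehner.coe_dil (NeZero.ne ℓ)]
  congr 2
  push_cast
  ring

/-- `E (N ℓ) ∘ β = pre diag(ℓ, 1) ∘ E N`. -/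
theorem E_beta (y : FN N) :
    E (N * ℓ) (heckeBetaBar (AlgebraicClosure ℚ) N ℓ y) = pre (dilG ℓ) (E N y) := by
  have h : (E (N * ℓ)).comp (heckeBetaBar (AlgebraicClosure ℚ) N ℓ).toRingHom =
      (pre (dilG ℓ)).toRingHom.comp (E N) := by
    refine hom_ext_FN N _ _ (fun c => ?_) (fun d _ hd => ?_)
    · show E (N * ℓ) (heckeBetaBar (AlgebraicClosure ℚ) N ℓ (algebraMap Kbar (FN N) c)) =
        pre (dilG ℓ) (E N (algebraMap Kbar (FN N) c))
      rw [AlgHom.commutes, E_const, E_const, pre_cstM]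
    · show E (N * ℓ) (heckeBetaBar (AlgebraicClosure ℚ) N ℓ
          ⟨FFBridge.gen d, FFBridge.gen_mem hd⟩) =
        pre (dilG ℓ) (E N ⟨FFBridge.gen d, FFBridge.gen_mem hd⟩)
      have : NeZero (ℓ * d) := ⟨Nat.mul_ne_zero (NeZero.ne ℓ) (NeZero.ne d)⟩
      rw [Fermat.Agent.S37.Kron.AtkinLehner.beta_gen N ℓ hd, E_gen N d hd,
        E_gen (N * ℓ) (ℓ * d) (by rw [mul_comm N ℓ]; exact Nat.mul_dvd_mul_left ℓ hd),
        pre_algebraMap, preHol_dilG_jHol]
  exact congrArg (fun φ : FN N →+* MerH => φ y) h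

end Degeneracy

end Fermat.Agent.P5.HeckeKappa

end
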