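import Mathlib
import Fermat.Prelude.Def_ModularCurve_HeckeModule
import Fermat.Agent.Lib.HeckeHomReps
import Fermat.Agent.Lib.TransferChar
import Fermat.Agent.P5.Kappa.Plan

/-!
# P5 — block [HECKE-κ] (owner: helper69): the contract

`Γ = Γ₀(N)`, `ℓ ∤ N` prime.

* `tcohChar N hℓ hℓN ψ : Γ →* ℂˣ` — the cohomological Hecke operator `T^coh_ℓ` on a character
  `ψ : Γ →* ℂˣ`: the multiplicative transfer `γ ↦ ∏ x, ψ (cof γ x)` along the coset family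
  `heckeRep ℓ` of `T_ℓ` (`Lib/HeckeHomReps.isCosetFamily_heckeRep`, the family of `Per.tcoh`).
* `HeckeKappaStmt N` — **the contract**: the Kummer relation of `[KAPPA]` (`Kappa.KummerRel`
  for the realisation `Kappa.realQ N` of `F_N / Q̄` on `ℍ`) intertwines the algebraic Hecke
  operator `heckeOperatorBar N ℓ` on `J₀(N)(Q̄) = Pic⁰(F_N / Q̄)` with `tcohChar`:
  `κ_n(T^alg_ℓ x) = T^coh_ℓ(κ_n x)`.

The proof is `HeckeKappa.heckeKappaStmt` in `P5/HeckeKappa/Main.lean`.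
-/

set_option autoImplicit false

noncomputable section

namespace Fermat.Agent.P5.HeckeKappa

open CongruenceSubgroup ModularCurve AlgebraicCurve
open Fermat.Agent.Lib Fermat.Agent.Lib.HeckeHom Fermat.Agent.Lib.HeckeHomGL
open P2MW.S_ModularForm_heckeT_slash_eq_self_of_mem_Gamma0.ModularForm.HeckeSlashInvariance
open scoped MatrixGroups

/-- The cohomological Hecke operator `T^coh_ℓ` (`ℓ ∤ N`) on characters `Γ₀(N) →* ℂˣ`:
`(T^coh_ℓ ψ)(γ) = ∏ x, ψ (cof γ x)`. -/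
def tcohChar (N : ℕ) {ℓ : ℕ} (hℓ : ℓ.Prime) (hℓN : ¬ ℓ ∣ N) (ψ : ↥(Gamma0 N) →* ℂˣ) :
    ↥(Gamma0 N) →* ℂˣ :=
  haveI : Fact ℓ.Prime := ⟨hℓ⟩
  TransferChar.heckeChar (isCosetFamily_heckeRep N ℓ hℓN) ψ

/-- `tcohChar` is the multiplicative transfer of `Lib/TransferChar` for the family `heckeRep ℓ`. -/
theorem tcohChar_eq_heckeChar (N : ℕ) {ℓ : ℕ} [Fact ℓ.Prime] (hℓ : ℓ.Prime) (hℓN : ¬ ℓ ∣ N)
    (ψ : ↥(Gamma0 N) →* ℂˣ) :
    tcohChar N hℓ hℓN ψ = TransferChar.heckeChar (isCosetFamily_heckeRep N ℓ hℓN) ψ := rfl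

/-- The defining formula: `(T^coh_ℓ ψ)(γ) = ∏ x, ψ (cof γ x)`. -/
theorem tcohChar_apply (N : ℕ) {ℓ : ℕ} [Fact ℓ.Prime] (hℓ : ℓ.Prime) (hℓN : ¬ ℓ ∣ N)
    (ψ : ↥(Gamma0 N) →* ℂˣ) (γ : ↥(Gamma0 N)) :
    tcohChar N hℓ hℓN ψ γ =
      ∏ x : OnePoint (ZMod ℓ), ψ ((isCosetFamily_heckeRep N ℓ hℓN).cof γ x) := rfl

/-- `tcohChar` is the transfer operator `heckeHom` of `Lib/HeckeHom` (i.e. the `Per.tcoh` of
block `[PER]` with coefficients `Additive ℂˣ`) read through `Additive`. -/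
theorem heckeHom_toAdditive_eq (N : ℕ) {ℓ : ℕ} [Fact ℓ.Prime] (hℓ : ℓ.Prime) (hℓN : ¬ ℓ ∣ N)
    (ψ : ↥(Gamma0 N) →* ℂˣ) :
    (isCosetFamily_heckeRep N ℓ hℓN).heckeHom (MonoidHom.toAdditive ψ)
      = MonoidHom.toAdditive (tcohChar N hℓ hℓN ψ) :=
  TransferChar.heckeHom_toAdditive _ ψ

/-- **Contract of block [HECKE-κ].**  For every prime `ℓ ∤ N`, every exponent `n`, every class
`x ∈ J₀(N)(Q̄)` and every character `ψ` of `Γ₀(N)`: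
if `ψ` is the Kummer character of `x` then `T^coh_ℓ ψ` is the Kummer character of `T^alg_ℓ x`. -/
def HeckeKappaStmt (N : ℕ) [NeZero N] : Prop :=
  ∀ (ℓ : ℕ) (hℓ : ℓ.Prime) (hℓN : ¬ ℓ ∣ N) (n : ℕ) (x : JZero N) (ψ : ↥(Gamma0 N) →* ℂˣ),
    Kappa.KummerRel (Kappa.realQ N) n x ψ →
      Kappa.KummerRel (Kappa.realQ N) n (heckeOperatorBar N ⟨ℓ, hℓ⟩ x) (tcohChar N hℓ hℓN ψ)

end Fermat.Agent.P5.HeckeKappa
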