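import Mathlib
import Fermat.Agent.P5.HeckeKappa.Ambient
import Fermat.Agent.Lib.NormOnH
import Fermat.Agent.Lib.HeckeHomReps
import Fermat.Agent.Lib.HeckeHomInt

/-!
# P5 — block [HECKE-κ] (helper69): the representatives of `T_ℓ` and the norm on `ℍ`

`ℓ` prime, `ℓ ∤ N`.

* `repP ℓ x : GLp` — the representatives `heckeRep ℓ x` (`x ∈ ℙ¹(𝔽_ℓ)`) of `T_ℓ` as elements of
  `GL₂(ℝ)⁺`; `eGp N γ : GLp` — the image of `γ ∈ Γ₀(N)`;
* `mem_Gamma0_mul_of_nxt_infty` : if `diag(ℓ,1) γ ∈ Γ₀(N) diag(ℓ,1)` (`γ ∈ Γ₀(N)`) then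
  `γ ∈ Γ₀(Nℓ)`;
* `norm_beta_rep` : **`E_N (Norm_α (β f)) = ∏_{x ∈ ℙ¹(𝔽_ℓ)} (E_N f) ∘ heckeRep ℓ x`**, from
  helper97's `Lib/NormOnH.norm_beta_on_H` for a transversal of `Γ₀(Nℓ) \ Γ₀(N)`, reindexed along
  `i ↦ nxt γ_i ∞`.
-/

set_option autoImplicit false
set_option linter.style.haveILetI false

noncomputable section

namespace Fermat.Agent.P5.HeckeKappa

open UpperHalfPlane CongruenceSubgroup ModularCurve AlgebraicCurve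
open Fermat.Agent.Lib Fermat.Agent.Lib.HolVal Fermat.Agent.S24
open Fermat.Agent.Lib.HeckeHom Fermat.Agent.Lib.HeckeHomGL Fermat.Agent.Lib.HeckePeriod
open P2MW.S_ModularForm_heckeT_slash_eq_self_of_mem_Gamma0.ModularForm.HeckeSlashInvariance
open Matrix.SpecialLinearGroup
open scoped MatrixGroups Manifold

/-- The image of `Γ₀(N)` in `GL₂(ℝ)` lies in `GL₂(ℝ)⁺`. -/
theorem eG_mem_GLp (N : ℕ) (γ : ↥(Gamma0 N)) : eG N γ ∈ GLp := (slp (γ : SL(2, ℤ))).2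

/-- `slp γ` is `eG N γ` with its positivity proof. -/
theorem slp_eq_eG (N : ℕ) (γ : ↥(Gamma0 N)) :
    slp (γ : SL(2, ℤ)) = ⟨eG N γ, eG_mem_GLp N γ⟩ := rfl

section Rep

variable (ℓ : ℕ) [Fact ℓ.Prime]

/-- The representatives of `T_ℓ` have positive determinant. -/
theorem heckeRep_mem_GLp (x : OnePoint (ZMod ℓ)) : heckeRep ℓ x ∈ GLp := by
  obtain ⟨a, b, d, h⟩ := exists_isUT_heckeRep ℓ x
  rw [Matrix.mem_glpos]
  have := h.det_pos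
  simpa using this

/-- The representatives of `T_ℓ` in `GL₂(ℝ)⁺`. -/
def repP (x : OnePoint (ZMod ℓ)) : GLp := ⟨heckeRep ℓ x, heckeRep_mem_GLp ℓ x⟩

theorem coe_repP (x : OnePoint (ZMod ℓ)) : ((repP ℓ x : GLp) : GL (Fin 2) ℝ) = heckeRep ℓ x := rfl

/-- `diag(ℓ, 1)` is the representative at `∞`. -/
theorem dilG_eq_repP [NeZero ℓ] : dilG ℓ = repP ℓ OnePoint.infty := by
  apply Subtype.ext
  apply Units.ext
  show (!![(ℓ : ℝ), 0; 0, 1] : Matrix (Fin 2) (Fin 2) ℝ) =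
    ((ModularForm.heckeDiagMatrix ℓ : GL (Fin 2) ℝ) : Matrix (Fin 2) (Fin 2) ℝ)
  rw [ModularForm.val_heckeDiagMatrix (Fact.out : ℓ.Prime).ne_zero]

end Rep

section Trans

variable (N ℓ : ℕ) [Fact ℓ.Prime]

/-- If `diag(ℓ,1) · γ ∈ Γ₀(N) · diag(ℓ,1)` for `γ ∈ Γ₀(N)`, then `γ ∈ Γ₀(Nℓ)`. -/
theorem mem_Gamma0_mul_of_nxt_infty (hℓN : ¬ ℓ ∣ N) (γ : ↥(Gamma0 N))
    (h : (isCosetFamily_heckeRep N ℓ hℓN).nxt γ OnePoint.infty = OnePoint.infty) :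
    (γ : SL(2, ℤ)) ∈ Gamma0 (N * ℓ) := by
  have hℓ0 : ℓ ≠ 0 := (Fact.out : ℓ.Prime).ne_zero
  have hs := (isCosetFamily_heckeRep N ℓ hℓN).spec γ OnePoint.infty
  rw [h] at hs
  set γ' := (isCosetFamily_heckeRep N ℓ hℓN).cof γ OnePoint.infty with hγ'
  have hM : ((ModularForm.heckeDiagMatrix ℓ : GL (Fin 2) ℝ) : Matrix (Fin 2) (Fin 2) ℝ) *
      ((mapGL ℝ (γ : SL(2, ℤ)) : GL (Fin 2) ℝ) : Matrix (Fin 2) (Fin 2) ℝ) =
      ((mapGL ℝ (γ' : SL(2, ℤ)) : GL (Fin 2) ℝ) : Matrix (Fin 2) (Fin 2) ℝ) *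
        ((ModularForm.heckeDiagMatrix ℓ : GL (Fin 2) ℝ) : Matrix (Fin 2) (Fin 2) ℝ) :=
    congrArg (fun g : GL (Fin 2) ℝ => (g : Matrix (Fin 2) (Fin 2) ℝ)) hs
  rw [ModularForm.val_heckeDiagMatrix hℓ0, coe_mapGL, coe_mapGL] at hM
  have e10 := congrFun (congrFun hM 1) 0
  simp [Matrix.mul_apply, Fin.sum_univ_two] at e10
  have i10 : (γ : SL(2, ℤ)) 1 0 = (γ' : SL(2, ℤ)) 1 0 * (ℓ : ℤ) := by exact_mod_cast e10
  have hN : (N : ℤ) ∣ (γ' : SL(2, ℤ)) 1 0 :=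
    (ZMod.intCast_zmod_eq_zero_iff_dvd _ _).mp (Gamma0_mem.mp γ'.2)
  rw [Gamma0_mem, ZMod.intCast_zmod_eq_zero_iff_dvd, i10]
  push_cast
  exact mul_dvd_mul_right hN _

variable [NeZero N] [NeZero ℓ]

/-- **The norm on `ℍ`, in terms of the representatives of `T_ℓ`:**
`E_N (Norm_α (β f)) = ∏_{x ∈ ℙ¹(𝔽_ℓ)} (E_N f) ∘ heckeRep ℓ x`. -/
theorem norm_beta_rep (hℓN : ¬ ℓ ∣ N) (f : FN N) :
    letI := algebraAlong (heckeAlphaBar Kbar N ℓ)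
    E N (Algebra.norm (FN N) (heckeBetaBar Kbar N ℓ f)) =
      ∏ x : OnePoint (ZMod ℓ), pre (repP ℓ x) (E N f) := by
  have hℓ : ℓ.Prime := Fact.out
  obtain ⟨γ, hγ, hinj⟩ := NormOnH.exists_transversal N ℓ hℓ hℓN
  have h := NormOnH.norm_beta_on_H N ℓ hℓ hℓN γ hγ hinj (Fintype.card_fin _) f
  refine h.trans ?_
  set hc := isCosetFamily_heckeRep N ℓ hℓN with hhc
  let g : Fin (ℓ + 1) → OnePoint (ZMod ℓ) := fun i => hc.nxt ⟨γ i, hγ i⟩ OnePoint.infty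
  have hg_inj : Function.Injective g := by
    intro i j hij
    apply hinj
    have hij' : hc.nxt ⟨γ i, hγ i⟩ OnePoint.infty = hc.nxt ⟨γ j, hγ j⟩ OnePoint.infty := hij
    have h1 : hc.nxt ((⟨γ i, hγ i⟩ : ↥(Gamma0 N)) * (⟨γ j, hγ j⟩ : ↥(Gamma0 N))⁻¹)
        OnePoint.infty = OnePoint.infty := by
      rw [hc.nxt_mul, hij', ← hc.nxt_mul, mul_inv_cancel, hc.nxt_one]
    exact mem_Gamma0_mul_of_nxt_infty N ℓ hℓN _ h1
  have hg_bij : Function.Bijective g :=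
    (Fintype.bijective_iff_injective_and_card g).mpr
      ⟨hg_inj, by rw [Fintype.card_fin, card_onePoint_zmod]⟩
  have key : ∀ i, pre (dilG ℓ * slp (γ i)) (E N f) = pre (repP ℓ (g i)) (E N f) := by
    intro i
    have hs := hc.spec ⟨γ i, hγ i⟩ OnePoint.infty
    have h2 : dilG ℓ * slp (γ i) =
        slp ((hc.cof ⟨γ i, hγ i⟩ OnePoint.infty : ↥(Gamma0 N)) : SL(2, ℤ)) * repP ℓ (g i) := by
      rw [dilG_eq_repP]
      exact Subtype.ext hs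
    rw [h2, pre_mul, pre_sl_E N (SetLike.coe_mem _)]
  rw [Finset.prod_congr rfl (fun i _ => key i)]
  exact Fintype.prod_bijective g hg_bij _ _ (fun i => rfl)

end Trans

end Fermat.Agent.P5.HeckeKappa
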