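import Mathlib
import Fermat.Prelude.Def_AlgebraicCurve_Correspondence

/-!
# P5 — block [HECKE-κ] (helper69), step (H4): the divisor side

For a correspondence `T = ψ_* ∘ φ^*` (`φ ψ : F →ₐ[K] F'`) on divisors of a function field
`F / K`:

  `n • D = div f`  ⟹  `n • T(D) = div (Norm_ψ (φ f))`.

* `pullbackAlong_mul_eq_ord` : `n * (φ^* D)(w) = ord_w (φ f)`;
* `correspondence_mul_eq_ord` : `n * (T D)(v) = ord_v (Norm_ψ (φ f))`, from the Prelude's norm
  formula `NormFormulaAlong K ψ`;
* `norm_along_ne_zero` : `Norm_ψ (φ f) ≠ 0`.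
-/

set_option autoImplicit false
set_option linter.style.haveILetI false

noncomputable section

namespace Fermat.Agent.P5.HeckeKappa

open AlgebraicCurve

section Generic

variable {K F F' : Type*} [Field K] [Field F] [Field F'] [Algebra K F] [Algebra K F']
variable [HasPrincipalDivisors K F']

/-- If `n • D = div f` then `n • φ^* D = div (φ f)`. -/
theorem pullbackAlong_mul_eq_ord (φ : F →ₐ[K] F') (hφ : φ.toRingHom.IsIntegral) (n : ℤ)
    (D : Divisor K F) (f : F) (hD : ∀ v : Place K F, n * D v = v.ord f) (w : Place K F') :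
    n * Divisor.pullbackAlong φ hφ D w = w.ord (φ f) := by
  letI := algebraAlong φ
  haveI := isScalarTower_along φ
  haveI := isIntegral_along φ hφ
  show n * Divisor.pullback F' D w = w.ord (algebraMap F F' f)
  rw [Divisor.pullback_apply, Place.ord_restrict, ← hD]
  ring

omit [HasPrincipalDivisors K F'] in
/-- The norm along `ψ` of a nonzero element is nonzero. -/
theorem norm_along_ne_zero (ψ : F →ₐ[K] F') (hfin : FiniteAlong K ψ) {g : F'} (hg : g ≠ 0) :
    (letI := algebraAlong ψ; Algebra.norm F g) ≠ 0 := by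
  letI := algebraAlong ψ
  haveI : Module.Finite F F' := hfin
  exact Algebra.norm_ne_zero_iff.mpr hg

/-- **(H4).** If `n • D = div f` then `n • (ψ_* φ^* D) = div (Norm_ψ (φ f))`. -/
theorem correspondence_mul_eq_ord (φ ψ : F →ₐ[K] F') (hφ : φ.toRingHom.IsIntegral)
    (hψ : ψ.toRingHom.IsIntegral) (hfin : FiniteAlong K ψ) (hN : NormFormulaAlong K ψ hfin)
    (n : ℕ) (D : Divisor K F) (f : F) (hf : f ≠ 0)
    (hD : ∀ v : Place K F, (n : ℤ) * D v = v.ord f) (v : Place K F) :
    (n : ℤ) * Divisor.correspondence φ ψ hφ hψ D v =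
      v.ord (letI := algebraAlong ψ; Algebra.norm F (φ f)) := by
  letI := algebraAlong ψ
  haveI := isScalarTower_along ψ
  haveI := isIntegral_along ψ hψ
  haveI : Module.Finite F F' := hfin
  have hN' : Divisor.PushforwardNormFormula K F F' := hN
  have h1 : ∀ w : Place K F', (n • Divisor.pullbackAlong φ hφ D) w = w.ord (φ f) := by
    intro w
    rw [Finsupp.smul_apply, nsmul_eq_mul]
    exact pullbackAlong_mul_eq_ord φ hφ n D f hD w
  have h2 := hN' (φ f) ((map_ne_zero φ).mpr hf) (n • Divisor.pullbackAlong φ hφ D) h1 v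
  rw [map_nsmul, Finsupp.smul_apply, nsmul_eq_mul] at h2
  rw [← h2]
  rfl

end Generic

end Fermat.Agent.P5.HeckeKappa
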