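import Mathlib
import Fermat.Agent.P5.HeckeKappa.Plan
import Fermat.Agent.P5.HeckeKappa.Rep
import Fermat.Agent.P5.HeckeKappa.Unfold
import Fermat.Agent.P5.Kappa.AmbientBridge
import Fermat.Agent.S37.HeckeInputs

/-!
# P5 — block [HECKE-κ] (owner: helper69): `κ_n (T^alg_ℓ x) = T^coh_ℓ (κ_n x)`

`Γ = Γ₀(N)`, `ℓ ∤ N` prime.  Let `x = [D] ∈ J₀(N)(Q̄)` with `n • D = div f` and let `G` be an
`n`-th root of `f` on `ℍ` with `G ∘ γ = ψ γ · G` (`γ ∈ Γ`), i.e. `KummerRel (realQ N) n x ψ`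
(block [KAPPA]).  Then

* `T^alg_ℓ x = [α_* β^* D]` and `n • α_* β^* D = div (Norm_α (β f))`     (`Unfold.lean`);
* `Norm_α (β f) = ∏_{x ∈ ℙ¹(𝔽_ℓ)} f ∘ heckeRep ℓ x` on `ℍ`              (`Rep.lean`, helper97's
  `Lib/NormOnH`), so `G' := ∏_x G ∘ heckeRep ℓ x` is an `n`-th root of it;
* `G' ∘ γ = (T^coh_ℓ ψ) γ · G'`                                        (`Lib/TransferChar.prod_pre`).

Hence `KummerRel (realQ N) n (T^alg_ℓ x) (T^coh_ℓ ψ)`: this is `heckeKappaStmt`.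
-/

set_option autoImplicit false
set_option linter.style.haveILetI false

noncomputable section

namespace Fermat.Agent.P5.HeckeKappa

open UpperHalfPlane CongruenceSubgroup ModularCurve AlgebraicCurve
open Fermat.Agent.Lib Fermat.Agent.Lib.HolVal Fermat.Agent.S24
open Fermat.Agent.Lib.HeckeHom Fermat.Agent.Lib.HeckeHomGL
open Fermat.Agent.S37.HeckeInputs
open P2MW.S_ModularForm_heckeT_slash_eq_self_of_mem_Gamma0.ModularForm.HeckeSlashInvariance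
open scoped MatrixGroups Manifold

/-- **The transfer.**  If `G ∘ γ = ψ γ · G` for `γ ∈ Γ₀(N)`, then `G' = ∏_x G ∘ heckeRep ℓ x`
satisfies `G' ∘ γ = (T^coh_ℓ ψ) γ · G'`. -/
theorem pre_prod_repP (N ℓ : ℕ) [Fact ℓ.Prime] (hℓ : ℓ.Prime) (hℓN : ¬ ℓ ∣ N) (G : MerH)
    (ψ : ↥(Gamma0 N) →* ℂˣ)
    (hG : ∀ γ : ↥(Gamma0 N), pre (slp (γ : SL(2, ℤ))) G = cstM ((ψ γ : ℂˣ) : ℂ) * G)
    (γ : ↥(Gamma0 N)) :
    pre (slp (γ : SL(2, ℤ))) (∏ x : OnePoint (ZMod ℓ), pre (repP ℓ x) G) =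
      cstM ((tcohChar N hℓ hℓN ψ γ : ℂˣ) : ℂ) * ∏ x : OnePoint (ZMod ℓ), pre (repP ℓ x) G := by
  have h := TransferChar.prod_pre (isCosetFamily_heckeRep N ℓ hℓN) GLp (eG_mem_GLp N)
    (heckeRep_mem_GLp ℓ) (fun s => (pre s).toRingHom.toMonoidHom)
    (fun a b m => pre_mul a b m) G (fun γ => cstM ((ψ γ : ℂˣ) : ℂ))
    (fun s γ => pre_cstM s _) hG γ
  have hc : cstM ((tcohChar N hℓ hℓN ψ γ : ℂˣ) : ℂ) =
      ∏ i : OnePoint (ZMod ℓ),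
        cstM ((ψ ((isCosetFamily_heckeRep N ℓ hℓN).cof γ i) : ℂˣ) : ℂ) := by
    rw [tcohChar_apply, Units.coe_prod, map_prod]
  rw [hc]
  exact h

/-- **Block [HECKE-κ]: the Kummer relation intertwines `T^alg_ℓ` and `T^coh_ℓ`.** -/
theorem heckeKappaStmt (N : ℕ) [NeZero N] : HeckeKappaStmt N := by
  intro ℓ hℓ hℓN n x ψ hx
  haveI : Fact ℓ.Prime := ⟨hℓ⟩
  haveI : NeZero ℓ := ⟨hℓ.ne_zero⟩
  obtain ⟨D, f, G, rfl, hD⟩ := hx
  haveI := hasPrincipalDivisors_FN (N * ℓ)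
  obtain ⟨hdeg, hmk⟩ := heckeOperatorAlong_mk N ℓ D
  refine ⟨⟨_, hdeg⟩,
    (letI := algebraAlong (heckeAlphaBar Kbar N ℓ)
     Algebra.norm (FN N) (heckeBetaBar Kbar N ℓ f)),
    ∏ x : OnePoint (ZMod ℓ), pre (repP ℓ x) G, ?_, ?_⟩
  · exact ((heckeOperatorBar_apply N ⟨ℓ, hℓ⟩ (Pic0.mk D)).trans hmk).symm
  · refine Kappa.isKummerDatum_realQ_of_pre N ?_ ?_ ?_ ?_
    · exact norm_along_ne_zero _ (finiteAlong_alpha N ℓ) ((map_ne_zero _).mpr hD.ne_zero)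
    · intro v
      exact correspondence_mul_eq_ord (heckeBetaBar Kbar N ℓ) (heckeAlphaBar Kbar N ℓ)
        (heckeBetaBarIntegral N ℓ) (heckeAlphaBarIntegral N ℓ) (finiteAlong_alpha N ℓ)
        (normFormulaAlong_alpha N ℓ) n D f hD.ne_zero hD.div_eq v
    · rw [← Finset.prod_pow, norm_beta_rep N ℓ hℓN f]
      refine Finset.prod_congr rfl fun x _ => ?_
      rw [← map_pow, hD.root_E]
    · intro γ
      exact pre_prod_repP N ℓ hℓ hℓN G ψ hD.pre_char γ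

end Fermat.Agent.P5.HeckeKappa
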